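import Fermat.Agent.Ribet.H698.RedMapSpec
import Fermat.Agent.Ribet.H376.I2Leaves
import Fermat.Agent.Ribet.H398.HeckeFun
import Fermat.Agent.Ribet.H997.RedField
import Fermat.Agent.Ribet.H801.DegKummer

/-!
# Row 37, WALL-q, leaf RED-MAP: PROVED glue  (sub-architect helper698)

`redMap_of_leaves : KummerRedStatement → GRSurjKStatement → GRInjKStatement →
    KnormFieldStatement → H158.WallQ.RedMapStatement`.

Landed inputs used: `H997.exists_isRedInf`, `H997.isRedInf_unique`, `H997.redField`,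
`H997.isRedSer_mem_of_good`, `H376.heckeRed`, `H376.frickeHecke`, `H398.isKummerGen_heckeNorm`,
`H801.constOfOrdZero_bar`, `S29.H395.mk_eq_mk_iff`.
-/

set_option autoImplicit false
set_option linter.style.haveILetI false
set_option linter.unusedSectionVars false
set_option linter.unusedVariables false
set_option synthInstance.maxHeartbeats 400000
set_option maxHeartbeats 1000000

noncomputable section

namespace Fermat.Agent.Ribet.H698.RedMap

open AlgebraicCurve ModularCurve HahnSeries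
open Fermat.Agent.S24 Fermat.Agent.A2.H708 Fermat.Agent.A2.H528
open Fermat.Agent.Ribet.Spec Fermat.Agent.Ribet.H944.Wall Fermat.Agent.Ribet.H884
open Fermat.Agent.Ribet.H158.WallQ
open Fermat.Agent.S37.H400

/-! ## Calculus of `PPowSeries` -/

section PPow

variable {m M' : ℕ} {k : Type} [Field k]

theorem coe_algebraMap_fullC (c : k) :
    ((algebraMap k (modularFunctionFieldFullC k M') c : modularFunctionFieldFullC k M') :
      LaurentSeries k) = HahnSeries.C c := by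
  have h0 : ((algebraMap k (modularFunctionFieldFullC k M') c :
      modularFunctionFieldFullC k M') : LaurentSeries k) =
      algebraMap k (LaurentSeries k) c := rfl
  have h1 : algebraMap k (PowerSeries k) c = PowerSeries.C c := by simp
  rw [h0, HahnSeries.algebraMap_apply', h1, HahnSeries.ofPowerSeries_C]

theorem pPow_one : PPowSeries m M' (1 : LaurentSeries k) :=
  ⟨1, 1, one_ne_zero, one_ne_zero, by simp⟩

theorem PPowSeries.mul {r r' : LaurentSeries k} (h : PPowSeries m M' r)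
    (h' : PPowSeries m M' r') : PPowSeries m M' (r * r') := by
  obtain ⟨c, a, hc, ha, rfl⟩ := h
  obtain ⟨c', a', hc', ha', rfl⟩ := h'
  refine ⟨c * c', a * a', mul_ne_zero hc hc', mul_ne_zero ha ha', ?_⟩
  rw [map_mul, IntermediateField.coe_mul, mul_pow]
  ring

theorem PPowSeries.inv {r : LaurentSeries k} (h : PPowSeries m M' r) :
    PPowSeries m M' r⁻¹ := by
  obtain ⟨c, a, hc, ha, rfl⟩ := h
  refine ⟨c⁻¹, a⁻¹, inv_ne_zero hc, inv_ne_zero ha, ?_⟩
  rw [map_inv₀, IntermediateField.coe_inv, inv_pow, mul_inv]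

theorem PPowSeries.ne_zero {r : LaurentSeries k} (h : PPowSeries m M' r) : r ≠ 0 := by
  obtain ⟨c, a, hc, ha, rfl⟩ := h
  have ha' : (a : LaurentSeries k) ≠ 0 := fun h0 => ha (Subtype.ext h0)
  have hc' : (HahnSeries.C c : LaurentSeries k) ≠ 0 := by
    intro h0
    apply hc
    have := congrArg (fun s : LaurentSeries k => s.coeff 0) h0
    simpa using this
  exact mul_ne_zero hc' (pow_ne_zero _ ha')

theorem PPowSeries.pDiv {r : LaurentSeries k} (h : PPowSeries m M' r) :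
    PDivSeries m M' r := by
  obtain ⟨c, a, hc, ha, rfl⟩ := h
  have hcF : algebraMap k (modularFunctionFieldFullC k M') c ≠ 0 := by simpa using hc
  refine ⟨algebraMap k (modularFunctionFieldFullC k M') c * a ^ m, ?_,
    mul_ne_zero hcF (pow_ne_zero _ ha), fun Q => ?_⟩
  · rw [IntermediateField.coe_mul, IntermediateField.coe_pow, coe_algebraMap_fullC]
  · rw [Place.ord_mul Q hcF (pow_ne_zero m ha), Fermat.Agent.A2.H129.ord_algebraMap_eq_zero,
      zero_add, Fermat.Agent.Ribet.H801.ord_pow_nat]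
    exact dvd_mul_right _ _

/-- A constant times the `m`-th power of an element of `F_k` given as a series. -/
theorem pPow_of_mem {c : k} (hc : c ≠ 0) {h : LaurentSeries k}
    (hh : h ∈ modularFunctionFieldFullC k M') (h0 : h ≠ 0) :
    PPowSeries m M' (HahnSeries.C c * h ^ m) :=
  ⟨c, ⟨h, hh⟩, hc, fun e => h0 (congrArg Subtype.val e), rfl⟩

end PPow

/-! ## Kummer generators of one class -/

section Kummer

variable {N : ℕ} [NeZero N] {m : ℕ}

/-- Two Kummer generators of the same class differ by a constant and an `m`-th power. -/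
theorem kummer_ratio {f f' : FF N} {x : JZero N} (h : IsKummerGen N m f x)
    (h' : IsKummerGen N m f' x) :
    ∃ (c : Kbar) (G : FF N), c ≠ 0 ∧ G ≠ 0 ∧ f' = algebraMap Kbar (FF N) c * f * G ^ m := by
  obtain ⟨hf, D, hDx, hD⟩ := h
  obtain ⟨hf', D', hDx', hD'⟩ := h'
  have he : Pic0.mk D' = Pic0.mk D := by rw [hDx, hDx']
  obtain ⟨G, hG0, hG⟩ := Fermat.Agent.S29.H395.mk_eq_mk_iff.mp he
  have hGm : G ^ m ≠ 0 := pow_ne_zero _ hG0
  set u : FF N := f' * f⁻¹ * (G ^ m)⁻¹ with hu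
  have hu0 : u ≠ 0 := mul_ne_zero (mul_ne_zero hf' (inv_ne_zero hf)) (inv_ne_zero hGm)
  have hou : ∀ v : Place Kbar (FF N), v.ord u = 0 := by
    intro v
    rw [hu, v.ord_mul (mul_ne_zero hf' (inv_ne_zero hf)) (inv_ne_zero hGm),
      v.ord_mul hf' (inv_ne_zero hf), v.ord_inv, v.ord_inv,
      Fermat.Agent.Ribet.H801.ord_pow_nat, hD v, hD' v, ← hG v]
    ring
  obtain ⟨c, hc⟩ := Fermat.Agent.Ribet.H801.constOfOrdZero_bar N u hu0 hou
  have hc0 : c ≠ 0 := by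
    rintro rfl
    rw [map_zero] at hc
    exact hu0 hc
  refine ⟨c, G, hc0, hG0, ?_⟩
  rw [← hc, hu]
  field_simp

end Kummer

/-! ## The generic lifting relation -/

section Generic

/-- The lifting relation through a twist `φ` of `FF (q M')` (`φ = id`: the `∞`-component,
`φ = w_N`: the `0`-component). -/
def LiftsVia (m q M' : ℕ) [NeZero M'] [NeZero (q * M')] (A : ValuationSubring Kbar)
    (φ : FF (q * M') →+* FF (q * M')) (x : JZero (q * M')) (z : JZero M') : Prop :=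
  ∃ (f : FF (q * M')) (g : FF M') (r s : LaurentSeries (kA A)),
    IsKummerGen (q * M') m f x ∧ IsKummerGen M' m g z ∧
    IsRedInf (q * M') A (φ f) r ∧ IsRedInf M' A g s ∧ PPowSeries m M' (r * s⁻¹)

/-- The properties of the twists `id`, `w_N` used by the glue. -/
structure GoodTwist (m q M' : ℕ) [NeZero M'] [NeZero (q * M')] (A : ValuationSubring Kbar)
    (φ : FF (q * M') →+* FF (q * M')) : Prop where
  const : ∀ c : Kbar, φ (algebraMap Kbar (FF (q * M')) c) = algebraMap Kbar (FF (q * M')) c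
  field : ∀ (f : FF (q * M')) (r : LaurentSeries (kA A)), IsRedInf (q * M') A (φ f) r →
    r ∈ modularFunctionFieldFullC (kA A) M'
  hecke : ∀ (ℓ : ℕ) [NeZero ℓ], ℓ.Prime → ¬ ℓ ∣ q * M' → ∀ f : FF (q * M'),
    φ (Fermat.Agent.S29.H222.heckeNorm (q * M') ℓ f) =
      Fermat.Agent.S29.H222.heckeNorm (q * M') ℓ (φ f)
  pdiv : ∀ f : FF (q * M'), FinGenQ m q M' A f →
    ∃ r : LaurentSeries (kA A), IsRedInf (q * M') A (φ f) r ∧ PDivSeries m M' r

variable {m q M' : ℕ} [NeZero M'] [NeZero (q * M')] {A : ValuationSubring Kbar}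
  {φ : FF (q * M') →+* FF (q * M')}

/-- Reductions of the twists of two Kummer generators of one class differ by a constant and an
`m`-th power of `F_k`. -/
theorem pPow_ratio (hq : q.Prime) (hA : A.LiesOverPrime q) (hφ : GoodTwist m q M' A φ)
    {f f' : FF (q * M')} {x : JZero (q * M')} (h : IsKummerGen (q * M') m f x)
    (h' : IsKummerGen (q * M') m f' x) {r r' : LaurentSeries (kA A)}
    (hr : IsRedInf (q * M') A (φ f) r) (hr' : IsRedInf (q * M') A (φ f') r') :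
    PPowSeries m M' (r' * r⁻¹) := by
  obtain ⟨c, G, hc, hG, he⟩ := kummer_ratio h h'
  have hφG : φ G ≠ 0 := (map_ne_zero φ).mpr hG
  obtain ⟨rG, hrG⟩ := Fermat.Agent.Ribet.H997.exists_isRedInf hq hA hφG
  have hrGm := hφ.field G rG hrG
  have hrG0 : rG ≠ 0 := hrG.ne_zero
  have hr0 : r ≠ 0 := hr.ne_zero
  have h1 : IsRedInf (q * M') A (φ f') (r * rG ^ m) := by
    rw [he, map_mul, map_mul, map_pow, hφ.const, mul_assoc]
    exact (hr.mul (hrG.pow m)).const_mul hc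
  obtain ⟨u, hu, hEq⟩ := Fermat.Agent.Ribet.H997.isRedInf_unique h1 hr'
  have h2 : r' * r⁻¹ = HahnSeries.C u * rG ^ m := by
    rw [hEq]
    field_simp
  rw [h2]
  exact pPow_of_mem hu hrGm hrG0

/-- **Functionality**: the lift is unique (GR-INJ-K). -/
theorem LiftsVia.unique (hGI : GRInjKStatement) (hq : q.Prime) (hq2 : q ≠ 2)
    (hqM : ¬ q ∣ M') (hm : 0 < m) (hcop : Nat.Coprime m q) (hA : A.LiesOverPrime q)
    (hφ : GoodTwist m q M' A φ) {x : JZero (q * M')} {z₁ z₂ : JZero M'}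
    (h₁ : LiftsVia m q M' A φ x z₁) (h₂ : LiftsVia m q M' A φ x z₂) : z₁ = z₂ := by
  obtain ⟨f₁, g₁, r₁, s₁, hf₁, hg₁, hr₁, hs₁, hP₁⟩ := h₁
  obtain ⟨f₂, g₂, r₂, s₂, hf₂, hg₂, hr₂, hs₂, hP₂⟩ := h₂
  have hrr := pPow_ratio hq hA hφ hf₁ hf₂ hr₁ hr₂
  have hr₁0 : r₁ ≠ 0 := hr₁.ne_zero
  have hr₂0 : r₂ ≠ 0 := hr₂.ne_zero
  have hs₁0 : s₁ ≠ 0 := hs₁.ne_zero
  have hs₂0 : s₂ ≠ 0 := hs₂.ne_zero
  have hss : PPowSeries m M' (s₂ * s₁⁻¹) := by
    have h3 := PPowSeries.mul (PPowSeries.mul hrr hP₁) (PPowSeries.inv hP₂)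
    have e : r₂ * r₁⁻¹ * (r₁ * s₁⁻¹) * (r₂ * s₂⁻¹)⁻¹ = s₂ * s₁⁻¹ := by
      field_simp
    rwa [e] at h3
  have hK : IsKummerGen M' m (g₂ * g₁⁻¹) (z₂ + -z₁) := hg₂.mul hg₁.inv
  have hR : IsRedInf M' A (g₂ * g₁⁻¹) (s₂ * s₁⁻¹) := hs₂.mul hs₁.inv
  have h0 := hGI m q M' hq hq2 hqM hm hcop A hA _ _ _ hK hR hss
  have : z₂ - z₁ = 0 := by rw [sub_eq_add_neg]; exact h0
  exact (sub_eq_zero.mp this).symm

/-- **Additivity** of the relation. -/
theorem LiftsVia.add {x x' : JZero (q * M')} {z z' : JZero M'}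
    (h : LiftsVia m q M' A φ x z) (h' : LiftsVia m q M' A φ x' z') :
    LiftsVia m q M' A φ (x + x') (z + z') := by
  obtain ⟨f, g, r, s, hf, hg, hr, hs, hP⟩ := h
  obtain ⟨f', g', r', s', hf', hg', hr', hs', hP'⟩ := h'
  refine ⟨f * f', g * g', r * r', s * s', hf.mul hf', hg.mul hg', ?_, hs.mul hs', ?_⟩
  · rw [map_mul]
    exact hr.mul hr'
  · have e : r * r' * (s * s')⁻¹ = r * s⁻¹ * (r' * s'⁻¹) := by
      rw [mul_inv]
      ring
    rw [e]
    exact PPowSeries.mul hP hP'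

theorem liftsVia_zero : LiftsVia m q M' A φ 0 0 := by
  refine ⟨1, 1, 1, 1, isKummerGen_one, isKummerGen_one, ?_, isRedInf_one, ?_⟩
  · rw [map_one]
    exact isRedInf_one
  · rw [inv_one, mul_one]
    exact pPow_one

/-- **Existence** of the lift on the finite part (GR-SURJ-K). -/
theorem exists_liftsVia (hGS : GRSurjKStatement) (hq : q.Prime) (hq2 : q ≠ 2)
    (hqM : ¬ q ∣ M') (hm : 0 < m) (hcop : Nat.Coprime m q) (hA : A.LiesOverPrime q)
    (hφ : GoodTwist m q M' A φ) {x : JZero (q * M')} (hx : x ∈ finSetQ m q M' A) :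
    ∃ z : JZero M', LiftsVia m q M' A φ x z := by
  obtain ⟨f, hf, hF⟩ := hx
  obtain ⟨r, hr, hP⟩ := hφ.pdiv f hF
  obtain ⟨z, g, s, hg, hs, hPP⟩ := hGS m q M' hq hq2 hqM hm hcop A hA r hP
  exact ⟨z, f, g, r, s, hf, hg, hr, hs, hPP⟩

end Generic

/-! ## The Kronecker norm on `F_k` -/

section Kron

variable {m M' : ℕ} {k : Type} [Field k]

theorem kronNorm_inv' {ℓ : ℕ} [NeZero ℓ] (hℓ : ℓ.Prime) {s : LaurentSeries k} (hs : s ≠ 0) :
    kronNorm ℓ s⁻¹ = (kronNorm ℓ s)⁻¹ := by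
  have h1 : kronNorm ℓ s⁻¹ * kronNorm ℓ s = 1 := by
    rw [← kronNorm_mul, inv_mul_cancel₀ hs, kronNorm_one]
  exact eq_inv_of_mul_eq_one_left h1

/-- `kronNorm ℓ` preserves `PPowSeries`, if it preserves `F_k`. -/
theorem pPow_kronNorm {ℓ : ℕ} [NeZero ℓ] (hℓ : ℓ.Prime)
    (hKF : ∀ h : modularFunctionFieldFullC k M',
      kronNorm ℓ (h : LaurentSeries k) ∈ modularFunctionFieldFullC k M')
    {t : LaurentSeries k} (ht : PPowSeries m M' t) : PPowSeries m M' (kronNorm ℓ t) := by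
  obtain ⟨c, a, hc, ha, rfl⟩ := ht
  have ha' : (a : LaurentSeries k) ≠ 0 := fun h0 => ha (Subtype.ext h0)
  rw [kronNorm_mul, kronNorm_pow, Fermat.Agent.Ribet.H376.kronNorm_C]
  exact pPow_of_mem (pow_ne_zero _ hc) (hKF a)
    (Fermat.Agent.Ribet.H376.kronNorm_ne_zero_of_field hℓ ha')

end Kron

/-! ## Hecke equivariance -/

section Hecke

variable {m q M' : ℕ} [NeZero M'] [NeZero (q * M')] {A : ValuationSubring Kbar}
  {φ : FF (q * M') →+* FF (q * M')}

/-- `kronNorm ℓ` preserves `PDivSeries` (through lifts to characteristic `0`). -/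
theorem pDiv_kronNorm (hKR : KummerRedStatement) (hGS : GRSurjKStatement)
    (hKF : KnormFieldStatement) (hq : q.Prime) (hq2 : q ≠ 2)
    (hqM : ¬ q ∣ M') (hm : 0 < m) (hcop : Nat.Coprime m q) (hA : A.LiesOverPrime q)
    (ℓ : Nat.Primes) [NeZero (ℓ : ℕ)] (hℓN : ¬ (ℓ : ℕ) ∣ q * M')
    {r : LaurentSeries (kA A)} (hr : PDivSeries m M' r) :
    PDivSeries m M' (kronNorm (ℓ : ℕ) r) := by
  have hℓM : ¬ (ℓ : ℕ) ∣ M' := fun h => hℓN (dvd_mul_of_dvd_right h q)
  obtain ⟨z, g, s, hg, hs, hPP⟩ := hGS m q M' hq hq2 hqM hm hcop A hA r hr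
  have hs0 : s ≠ 0 := hs.ne_zero
  have e : r = r * s⁻¹ * s := by
    rw [mul_assoc, inv_mul_cancel₀ hs0, mul_one]
  rw [e, kronNorm_mul]
  have h1 : PPowSeries m M' (kronNorm (ℓ : ℕ) (r * s⁻¹)) :=
    pPow_kronNorm ℓ.2 (hKF q M' hq hqM A hA ℓ ℓ.2 hℓN) hPP
  have h2 : IsRedInf M' A (Fermat.Agent.S29.H222.heckeNorm M' (ℓ : ℕ) g)
      (kronNorm (ℓ : ℕ) s) :=
    Fermat.Agent.Ribet.H376.isRedInf_heckeNorm' M' ℓ ℓ.2 hℓM A hs
  have h3 : IsKummerGen M' m (Fermat.Agent.S29.H222.heckeNorm M' (ℓ : ℕ) g)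
      (heckeOperatorBar M' ℓ z) :=
    Fermat.Agent.Ribet.H398.isKummerGen_heckeNorm M' ℓ m g z hg
  exact (PPowSeries.pDiv h1).mul (hKR m q M' hq hq2 hqM A hA _ _ _ h3 h2)

/-- **Hecke equivariance** of the relation. -/
theorem LiftsVia.hecke (hKF : KnormFieldStatement) (hq : q.Prime) (hqM : ¬ q ∣ M')
    (hA : A.LiesOverPrime q) (hφ : GoodTwist m q M' A φ)
    (ℓ : Nat.Primes) [NeZero (ℓ : ℕ)] (hℓN : ¬ (ℓ : ℕ) ∣ q * M')
    {x : JZero (q * M')} {z : JZero M'} (h : LiftsVia m q M' A φ x z) :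
    LiftsVia m q M' A φ (heckeOperatorBar (q * M') ℓ x) (heckeOperatorBar M' ℓ z) := by
  have hℓM : ¬ (ℓ : ℕ) ∣ M' := fun h => hℓN (dvd_mul_of_dvd_right h q)
  obtain ⟨f, g, r, s, hf, hg, hr, hs, hPP⟩ := h
  have hs0 : s ≠ 0 := hs.ne_zero
  refine ⟨Fermat.Agent.S29.H222.heckeNorm (q * M') (ℓ : ℕ) f,
    Fermat.Agent.S29.H222.heckeNorm M' (ℓ : ℕ) g, kronNorm (ℓ : ℕ) r, kronNorm (ℓ : ℕ) s,
    Fermat.Agent.Ribet.H398.isKummerGen_heckeNorm (q * M') ℓ m f x hf,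
    Fermat.Agent.Ribet.H398.isKummerGen_heckeNorm M' ℓ m g z hg, ?_,
    Fermat.Agent.Ribet.H376.isRedInf_heckeNorm' M' ℓ ℓ.2 hℓM A hs, ?_⟩
  · rw [hφ.hecke ℓ ℓ.2 hℓN f]
    exact Fermat.Agent.Ribet.H376.isRedInf_heckeNorm' (q * M') ℓ ℓ.2 hℓN A hr
  · rw [← kronNorm_inv' ℓ.2 hs0, ← kronNorm_mul]
    exact pPow_kronNorm ℓ.2 (hKF q M' hq hqM A hA ℓ ℓ.2 hℓN) hPP

end Hecke

/-! ## `finSetQ` is a subgroup, stable under `T_ℓ` -/

section Closed

variable {m q M' : ℕ} [NeZero M'] [NeZero (q * M')] {A : ValuationSubring Kbar}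

theorem finGenQ_one : FinGenQ m q M' A (1 : FF (q * M')) :=
  ⟨1, 1, isRedInf_one, isRedZero_one, pDivSeries_one m M', pDivSeries_one m M'⟩

theorem FinGenQ.mul {f f' : FF (q * M')} (h : FinGenQ m q M' A f)
    (h' : FinGenQ m q M' A f') : FinGenQ m q M' A (f * f') := by
  obtain ⟨r₁, r₂, h1, h2, h3, h4⟩ := h
  obtain ⟨r₁', r₂', h1', h2', h3', h4'⟩ := h'
  exact ⟨r₁ * r₁', r₂ * r₂', h1.mul h1', h2.mul h2', h3.mul h3', h4.mul h4'⟩

theorem FinGenQ.inv {f : FF (q * M')} (h : FinGenQ m q M' A f) :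
    FinGenQ m q M' A f⁻¹ := by
  obtain ⟨r₁, r₂, h1, h2, h3, h4⟩ := h
  exact ⟨r₁⁻¹, r₂⁻¹, h1.inv, h2.inv, h3.inv, h4.inv⟩

/-- **FINCLOSED-q**: `finSetQ` is already a subgroup. -/
theorem mem_finSetQ_of_mem_finPartQ {x : JZero (q * M')} (hx : x ∈ finPartQ m q M' A) :
    x ∈ finSetQ m q M' A := by
  unfold finPartQ at hx
  induction hx using AddSubgroup.closure_induction with
  | mem x hx => exact hx
  | zero => exact ⟨1, isKummerGen_one, finGenQ_one⟩
  | add x y _ _ hx hy =>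
    obtain ⟨f, hf, hF⟩ := hx
    obtain ⟨f', hf', hF'⟩ := hy
    exact ⟨f * f', hf.mul hf', FinGenQ.mul hF hF'⟩
  | neg x _ hx =>
    obtain ⟨f, hf, hF⟩ := hx
    exact ⟨f⁻¹, hf.inv, FinGenQ.inv hF⟩

/-- `finSetQ` is stable under `T_ℓ`, `ℓ ∤ q M'`. -/
theorem hecke_mem_finSetQ (hKR : KummerRedStatement) (hGS : GRSurjKStatement)
    (hKF : KnormFieldStatement) (hq : q.Prime) (hq2 : q ≠ 2)
    (hqM : ¬ q ∣ M') (hm : 0 < m) (hcop : Nat.Coprime m q) (hA : A.LiesOverPrime q)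
    (ℓ : Nat.Primes) [NeZero (ℓ : ℕ)] (hℓN : ¬ (ℓ : ℕ) ∣ q * M')
    {x : JZero (q * M')} (hx : x ∈ finSetQ m q M' A) :
    heckeOperatorBar (q * M') ℓ x ∈ finSetQ m q M' A := by
  obtain ⟨f, hf, r₁, r₂, h1, h2, h3, h4⟩ := hx
  refine ⟨Fermat.Agent.S29.H222.heckeNorm (q * M') (ℓ : ℕ) f,
    Fermat.Agent.Ribet.H398.isKummerGen_heckeNorm (q * M') ℓ m f x hf,
    kronNorm (ℓ : ℕ) r₁, kronNorm (ℓ : ℕ) r₂,
    Fermat.Agent.Ribet.H376.isRedInf_heckeNorm' (q * M') ℓ ℓ.2 hℓN A h1, ?_,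
    pDiv_kronNorm hKR hGS hKF hq hq2 hqM hm hcop hA ℓ hℓN h3,
    pDiv_kronNorm hKR hGS hKF hq hq2 hqM hm hcop hA ℓ hℓN h4⟩
  unfold IsRedZero at h2 ⊢
  rw [Fermat.Agent.Ribet.H376.wF_heckeNorm ℓ.2 hℓN f]
  exact Fermat.Agent.Ribet.H376.isRedInf_heckeNorm' (q * M') ℓ ℓ.2 hℓN A h2

end Closed

/-! ## The kernel -/

section Kernel

variable {m q M' : ℕ} [NeZero M'] [NeZero (q * M')] {A : ValuationSubring Kbar}
  {φ : FF (q * M') →+* FF (q * M')}

/-- A Kummer generator of the class `0` of level `M'` has reduction `c · h ^ m`. -/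
theorem pPow_of_kummer_zero (hq : q.Prime) (hqM : ¬ q ∣ M') (hA : A.LiesOverPrime q)
    {g : FF M'} {s : LaurentSeries (kA A)} (hg : IsKummerGen M' m g 0)
    (hs : IsRedInf M' A g s) : PPowSeries m M' s := by
  obtain ⟨c, G, hc, hG, he⟩ := kummer_ratio (isKummerGen_one (N := M') (p := m)) hg
  obtain ⟨rG, hrG⟩ := Fermat.Agent.Ribet.H997.exists_isRedInf hq hA hG
  have hrGm : rG ∈ modularFunctionFieldFullC (kA A) M' :=
    Fermat.Agent.Ribet.H997.isRedSer_mem_of_good hq hqM hA G.2 hrG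
  have hrG0 : rG ≠ 0 := hrG.ne_zero
  have h1 : IsRedInf M' A g (rG ^ m) := by
    rw [he, mul_one]
    exact (hrG.pow m).const_mul hc
  obtain ⟨u, hu, hEq⟩ := Fermat.Agent.Ribet.H997.isRedInf_unique h1 hs
  rw [hEq]
  exact pPow_of_mem hu hrGm hrG0

/-- If `x` lifts to `0`, every Kummer generator of `x` has twisted reduction `c · h ^ m`. -/
theorem pPow_of_liftsVia_zero (hq : q.Prime) (hqM : ¬ q ∣ M') (hA : A.LiesOverPrime q)
    (hφ : GoodTwist m q M' A φ) {x : JZero (q * M')} (h : LiftsVia m q M' A φ x 0)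
    {f : FF (q * M')} (hf : IsKummerGen (q * M') m f x) {r : LaurentSeries (kA A)}
    (hr : IsRedInf (q * M') A (φ f) r) : PPowSeries m M' r := by
  obtain ⟨f', g, r', s, hf', hg, hr', hs, hPP⟩ := h
  have hs0 : s ≠ 0 := hs.ne_zero
  have hr'0 : r' ≠ 0 := hr'.ne_zero
  have h1 : PPowSeries m M' s := pPow_of_kummer_zero hq hqM hA hg hs
  have h2 : PPowSeries m M' r' := by
    have := PPowSeries.mul hPP h1
    rwa [mul_assoc, inv_mul_cancel₀ hs0, mul_one] at this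
  have h3 := pPow_ratio hq hA hφ hf' hf hr' hr
  have := PPowSeries.mul h3 h2
  rwa [mul_assoc, inv_mul_cancel₀ hr'0, mul_one] at this

end Kernel

/-! ## The map -/

section Map

variable {m q M' : ℕ} [NeZero M'] [NeZero (q * M')] {A : ValuationSubring Kbar}

theorem goodTwist_id (hq : q.Prime) (hqM : ¬ q ∣ M') (hA : A.LiesOverPrime q) [NeZero q] :
    GoodTwist m q M' A (RingHom.id (FF (q * M'))) where
  const _ := rfl
  field f r h := by
    obtain ⟨a, ha⟩ := Fermat.Agent.Ribet.H997.redField q M' hq hqM A hA f r (Or.inl h)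
    rw [← ha]
    exact a.2
  hecke _ _ _ _ _ := rfl
  pdiv f hF := by
    obtain ⟨r₁, r₂, h1, h2, h3, h4⟩ := hF
    exact ⟨r₁, h1, h3⟩

theorem goodTwist_wF (hq : q.Prime) (hqM : ¬ q ∣ M') (hA : A.LiesOverPrime q) [NeZero q] :
    GoodTwist m q M' A ((wF (q * M') : FF (q * M') ≃ₐ[Kbar] FF (q * M')) :
      FF (q * M') →+* FF (q * M')) where
  const c := (wF (q * M')).commutes c
  field f r h := by
    obtain ⟨a, ha⟩ := Fermat.Agent.Ribet.H997.redField q M' hq hqM A hA f r (Or.inr h)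
    rw [← ha]
    exact a.2
  hecke ℓ _ hℓ hℓN f := Fermat.Agent.Ribet.H376.wF_heckeNorm hℓ hℓN f
  pdiv f hF := by
    obtain ⟨r₁, r₂, h1, h2, h3, h4⟩ := hF
    exact ⟨r₂, h2, h4⟩

variable (hGS : GRSurjKStatement) (hGI : GRInjKStatement)
  (hq : q.Prime) (hq2 : q ≠ 2) (hqM : ¬ q ∣ M') (hm : 0 < m) (hcop : Nat.Coprime m q)
  (hA : A.LiesOverPrime q) {φ : FF (q * M') →+* FF (q * M')} (hφ : GoodTwist m q M' A φ)

/-- The lift through `φ`, as a homomorphism on the finite part. -/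
def liftHom : finPartQ m q M' A →+ JZero M' where
  toFun x := Classical.choose
    (exists_liftsVia hGS hq hq2 hqM hm hcop hA hφ (mem_finSetQ_of_mem_finPartQ x.2))
  map_zero' :=
    LiftsVia.unique hGI hq hq2 hqM hm hcop hA hφ
      (Classical.choose_spec
        (exists_liftsVia hGS hq hq2 hqM hm hcop hA hφ
          (mem_finSetQ_of_mem_finPartQ (0 : finPartQ m q M' A).2)))
      liftsVia_zero
  map_add' x y :=
    LiftsVia.unique hGI hq hq2 hqM hm hcop hA hφ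
      (Classical.choose_spec
        (exists_liftsVia hGS hq hq2 hqM hm hcop hA hφ
          (mem_finSetQ_of_mem_finPartQ (x + y).2)))
      (LiftsVia.add
        (Classical.choose_spec
          (exists_liftsVia hGS hq hq2 hqM hm hcop hA hφ (mem_finSetQ_of_mem_finPartQ x.2)))
        (Classical.choose_spec
          (exists_liftsVia hGS hq hq2 hqM hm hcop hA hφ (mem_finSetQ_of_mem_finPartQ y.2))))

theorem liftHom_spec (x : finPartQ m q M' A) :
    LiftsVia m q M' A φ (x : JZero (q * M'))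
      (liftHom hGS hGI hq hq2 hqM hm hcop hA hφ x) :=
  Classical.choose_spec
    (exists_liftsVia hGS hq hq2 hqM hm hcop hA hφ (mem_finSetQ_of_mem_finPartQ x.2))

end Map

/-! ## RED-MAP -/

/-- **RED-MAP from its leaves**: `𝓕 / 𝒮` embeds Hecke-equivariantly in `J₀(M') × J₀(M')`. -/
theorem redMap_of_leaves (hKR : KummerRedStatement) (hGS : GRSurjKStatement)
    (hGI : GRInjKStatement) (hKF : KnormFieldStatement) : RedMapStatement := by
  intro p n q M' _ _ _ hp hp5 hn hq hq2 hqp hqM A hA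
  have hm : 0 < p ^ n := pow_pos hp.pos n
  have hcop : Nat.Coprime (p ^ n) q :=
    Nat.Coprime.pow_left n ((Nat.coprime_primes hp hq).mpr (Ne.symm hqp))
  have hφ₁ : GoodTwist (p ^ n) q M' A (RingHom.id (FF (q * M'))) := goodTwist_id hq hqM hA
  have hφ₂ : GoodTwist (p ^ n) q M' A ((wF (q * M') : FF (q * M') ≃ₐ[Kbar] FF (q * M')) :
      FF (q * M') →+* FF (q * M')) := goodTwist_wF hq hqM hA
  refine ⟨(q * M').primeFactors,
    (liftHom hGS hGI hq hq2 hqM hm hcop hA hφ₁).prod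
      (liftHom hGS hGI hq hq2 hqM hm hcop hA hφ₂), ?_, ?_⟩
  · intro ℓ hℓ x
    haveI : NeZero (ℓ : ℕ) := ⟨ℓ.2.ne_zero⟩
    have hℓN : ¬ (ℓ : ℕ) ∣ q * M' := fun h =>
      hℓ (Nat.mem_primeFactors.mpr ⟨ℓ.2, h, NeZero.ne _⟩)
    have hx : heckeOperatorBar (q * M') ℓ (x : JZero (q * M')) ∈ finPartQ (p ^ n) q M' A :=
      AddSubgroup.subset_closure
        (hecke_mem_finSetQ hKR hGS hKF hq hq2 hqM hm hcop hA ℓ hℓN
          (mem_finSetQ_of_mem_finPartQ x.2))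
    refine ⟨hx, ?_⟩
    apply Prod.ext
    · exact LiftsVia.unique hGI hq hq2 hqM hm hcop hA hφ₁
        (liftHom_spec hGS hGI hq hq2 hqM hm hcop hA hφ₁ ⟨_, hx⟩)
        (LiftsVia.hecke hKF hq hqM hA hφ₁ ℓ hℓN
          (liftHom_spec hGS hGI hq hq2 hqM hm hcop hA hφ₁ x))
    · exact LiftsVia.unique hGI hq hq2 hqM hm hcop hA hφ₂
        (liftHom_spec hGS hGI hq hq2 hqM hm hcop hA hφ₂ ⟨_, hx⟩)
        (LiftsVia.hecke hKF hq hqM hA hφ₂ ℓ hℓN
          (liftHom_spec hGS hGI hq hq2 hqM hm hcop hA hφ₂ x))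
  · intro x hx0
    have h1 : liftHom hGS hGI hq hq2 hqM hm hcop hA hφ₁ x = 0 := congrArg Prod.fst hx0
    have h2 : liftHom hGS hGI hq hq2 hqM hm hcop hA hφ₂ x = 0 := congrArg Prod.snd hx0
    have l1 := liftHom_spec hGS hGI hq hq2 hqM hm hcop hA hφ₁ x
    have l2 := liftHom_spec hGS hGI hq hq2 hqM hm hcop hA hφ₂ x
    rw [h1] at l1
    rw [h2] at l2
    obtain ⟨f, hf, r₁, r₂, hr1, hr2, -, -⟩ := mem_finSetQ_of_mem_finPartQ x.2
    refine AddSubgroup.subset_closure ⟨f, hf, r₁, r₂, hr1, hr2, ?_, ?_⟩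
    · exact pPow_of_liftsVia_zero hq hqM hA hφ₁ l1 hf hr1
    · exact pPow_of_liftsVia_zero hq hqM hA hφ₂ l2 hf hr2

/-- **(Q3) RED from the leaves of RED-MAP.** -/
theorem q3_of_leaves (hKR : KummerRedStatement) (hGS : GRSurjKStatement)
    (hGI : GRInjKStatement) (hKF : KnormFieldStatement) : Q3Statement :=
  q3_of_redMap (redMap_of_leaves hKR hGS hGI hKF)

end Fermat.Agent.Ribet.H698.RedMap

end
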