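import Fermat.Agent.Ribet.H158.WallQPow

/-!
# Row 37, WALL-q, leaf RED-MAP (`H158.WallQ.RedMapStatement`): frozen sub-leaves
  (sub-architect helper698)

`N = q·M'`, `q ∤ M'`, `A` a valuation subring of `ℚ̄` over `q`, `k = kA A`, torsion order `m`
prime to `q` (`m = p ^ n` in the application), `F_k = modularFunctionFieldFullC k M'`.

The map `β : 𝓕 → J₀(M') × J₀(M')` of RED-MAP is defined through the relation
"`x` lifts to `z` on the `∞`-component" (resp. on the `0`-component):

  `LiftsInf m q M' A x z`  :=  `x` has a Kummer generator `f` (level `qM'`), `z` has a Kummer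
     generator `g` (level `M'`), with reductions `r` of `f` and `s` of `g` on the `∞`-component
     such that `r / s = c · h ^ m`, `c ∈ kˣ`, `h ∈ F_kˣ`;
  `LiftsZero m q M' A x z` :=  the same with `r` a reduction of `w_N f` (`IsRedZero`).

No `Pic⁰(F_k)` appears in the interface: only the landed vocabulary `IsKummerGen`, `IsRedInf`,
`PDivSeries`, `PPowSeries`.

## Leaves (all at the level `M'`, good reduction at `q`; prove VERBATIM)
| leaf | Prop | content |
|---|---|---|
| KUMMER-RED  | `KummerRedStatement`  | the reduction of a Kummer generator of level `M'` is `PDivSeries` |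
| GR-SURJ-K   | `GRSurjKStatement`    | every `PDivSeries m M' r` is `c · s · h ^ m`, `s` the reduction of a Kummer generator of some `z ∈ J₀(M')` (torsion lifts to characteristic `0`) |
| GR-INJ-K    | `GRInjKStatement`     | a class of `J₀(M')` with a Kummer generator whose reduction is `c · h ^ m` is `0` (S18) |
| KNORM-FIELD | `KnormFieldStatement` | the formal Kronecker norm preserves `F_k` |

Glue (PROVED in `RedMapGlue.lean`): the four leaves ⟹ `H158.WallQ.RedMapStatement`
(hence `Q3Statement` by `H158.WallQ.q3_of_redMap`).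
-/

set_option autoImplicit false
set_option synthInstance.maxHeartbeats 400000
set_option maxHeartbeats 1000000

noncomputable section

namespace Fermat.Agent.Ribet.H698.RedMap

open AlgebraicCurve ModularCurve HahnSeries
open Fermat.Agent.S24 Fermat.Agent.A2.H708 Fermat.Agent.A2.H528
open Fermat.Agent.Ribet.Spec Fermat.Agent.Ribet.H944.Wall Fermat.Agent.Ribet.H884
open Fermat.Agent.Ribet.H158.WallQ
open Fermat.Agent.S37.H400

/-! ## The lifting relations -/

section Rel

variable (m q M' : ℕ) [NeZero M'] [NeZero (q * M')] (A : ValuationSubring Kbar)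

/-- `x ∈ J₀(qM')` lifts to `z ∈ J₀(M')` on the `∞`-component. -/
def LiftsInf (x : JZero (q * M')) (z : JZero M') : Prop :=
  ∃ (f : FF (q * M')) (g : FF M') (r s : LaurentSeries (kA A)),
    IsKummerGen (q * M') m f x ∧ IsKummerGen M' m g z ∧
    IsRedInf (q * M') A f r ∧ IsRedInf M' A g s ∧ PPowSeries m M' (r * s⁻¹)

/-- `x ∈ J₀(qM')` lifts to `z ∈ J₀(M')` on the `0`-component. -/
def LiftsZero (x : JZero (q * M')) (z : JZero M') : Prop :=
  ∃ (f : FF (q * M')) (g : FF M') (r s : LaurentSeries (kA A)),
    IsKummerGen (q * M') m f x ∧ IsKummerGen M' m g z ∧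
    IsRedZero (q * M') A f r ∧ IsRedInf M' A g s ∧ PPowSeries m M' (r * s⁻¹)

end Rel

/-! ## Leaves -/

/-- **KUMMER-RED** (good reduction at `q ∤ M'`): the reduction of a Kummer generator of level
`M'` lies in `F_k` and has `m`-divisible orders at all places
(`div (red g) = red_* (div g) = m · red_* E`). -/
def KummerRedStatement : Prop :=
  ∀ (m q M' : ℕ) [NeZero M'], q.Prime → q ≠ 2 → ¬ q ∣ M' →
    ∀ A : ValuationSubring Kbar, A.LiesOverPrime q →
    ∀ (z : JZero M') (g : FF M') (s : LaurentSeries (kA A)),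
      IsKummerGen M' m g z → IsRedInf M' A g s → PDivSeries m M' s

/-- **GR-SURJ-K** (torsion lifts to characteristic `0`, Kummer form): every `r ∈ F_k` with
`m ∣ div r` is, up to a constant and an `m`-th power of `F_k`, the reduction of a Kummer
generator of a class of `J₀(M')`.  (`reductionModL` is onto `Pic⁰(F_k)[m]`, `m` prime to `q`.) -/
def GRSurjKStatement : Prop :=
  ∀ (m q M' : ℕ) [NeZero M'], q.Prime → q ≠ 2 → ¬ q ∣ M' → 0 < m → Nat.Coprime m q →
    ∀ A : ValuationSubring Kbar, A.LiesOverPrime q →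
    ∀ r : LaurentSeries (kA A), PDivSeries m M' r →
      ∃ (z : JZero M') (g : FF M') (s : LaurentSeries (kA A)),
        IsKummerGen M' m g z ∧ IsRedInf M' A g s ∧ PPowSeries m M' (r * s⁻¹)

/-- **GR-INJ-K** (S18 in Kummer form): a class of `J₀(M')` with a Kummer generator whose
reduction is a constant times an `m`-th power of `F_k` is `0` (`m` prime to `q`). -/
def GRInjKStatement : Prop :=
  ∀ (m q M' : ℕ) [NeZero M'], q.Prime → q ≠ 2 → ¬ q ∣ M' → 0 < m → Nat.Coprime m q →
    ∀ A : ValuationSubring Kbar, A.LiesOverPrime q →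
    ∀ (z : JZero M') (g : FF M') (s : LaurentSeries (kA A)),
      IsKummerGen M' m g z → IsRedInf M' A g s → PPowSeries m M' s → z = 0

/-- **KNORM-FIELD**: the formal Kronecker norm `kronNorm ℓ` (`ℓ ∤ q M'`) maps
`F_k = k(X₀(M'))` into itself. -/
def KnormFieldStatement : Prop :=
  ∀ (q M' : ℕ) [NeZero M'], q.Prime → ¬ q ∣ M' →
    ∀ A : ValuationSubring Kbar, A.LiesOverPrime q →
    ∀ (ℓ : ℕ) [NeZero ℓ], ℓ.Prime → ¬ ℓ ∣ q * M' →
    ∀ h : modularFunctionFieldFullC (kA A) M',
      kronNorm ℓ (h : LaurentSeries (kA A)) ∈ modularFunctionFieldFullC (kA A) M'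

end Fermat.Agent.Ribet.H698.RedMap

end
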