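import Fermat.Agent.Ribet.H912.TameCore

/-!
# S59 gate / RIBET wall at `p = 3`: TAME with an ABSTRACT unit pair (helper698)

`H912.tameLevel` / `H912.tameCore` use THE modular unit `Δ(t)/Δ(t^q)` (pair exponent `12`), hence
`Nat.Coprime 12 m`: the only essential use of `5 ≤ p` in the TAME leaf.  Here the unit pair is an
INPUT (`UnitPairGen`): at the level `E`, for every uniformiser and both cuts of the chart of
`x = j · j_q`, a pair `D · D' = w ^ Nn` with `Nn` prime to the exponent `m`, `D ∉ 𝔭₁`, `D' ∉ 𝔭₂`,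
and `Q D` (`Q` = any property of the first member, e.g. its `t`-expansion).

* `tameLevel_gen` : purity of the calibrated function `y ^ Nn · D ^ (v₁ - v₂) · w ^ (- Nn v₁)`
  at every closed point of the special fibre of the finite chart, at ANY good level `E`
  (no ramification hypothesis: the exponent of the pair is abstract);
* `tameCore_gen`  : two-prime form (`q` residue prime, `m` exponent, `q = m` allowed): a class
  `x ∈ J₀(q M)[m]` fixed by inertia has a Kummer generator `f` with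
  `G · Dg ^ b = f ^ n · Dg ^ a`, `n` prime to `m`, `Dg = ι D₁`, `Q D₁`, and `G` has `NodeGen` shape.

Proof = `H912` verbatim with `12 ↦ Nn` (`H868.pureAt_tame` is generic in the exponent).
-/

set_option autoImplicit false
set_option linter.style.haveILetI false
set_option linter.unusedSectionVars false
set_option linter.unusedVariables false
set_option synthInstance.maxHeartbeats 400000
set_option maxHeartbeats 1600000

noncomputable section

namespace Fermat.Agent.Ribet.H698.TameGen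

open ModularCurve AlgebraicCurve HahnSeries
open Fermat.Agent.A2 Fermat.Agent.A2.Alg Fermat.Agent.A2.T1.H669
open Fermat.Agent.S24 Fermat.Agent.A2.H708
open Fermat.Agent.Ribet.H884

section Level

variable (A : ValuationSubring Kbar) (E : IntermediateField ℚ Kbar) (M q : ℕ) [NeZero M] [NeZero q]

/-- **Abstract UNIT input** at the level `E`, exponent `m`: for every uniformiser and both cuts
of the chart of `xE`, a pair `D · D' = w ^ Nn` with `0 < Nn` prime to `m`, `D ∉ 𝔭₁`, `D' ∉ 𝔭₂`,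
and `Q D`. -/
def UnitPairGen (m : ℕ) (Q : Mod.FE E (M * q) → Prop) : Prop :=
  ∀ (w : Mod.RE A E), Mod.Setting A E M q w →
    ∀ (V : ValuationSubring (Mod.FE E (M * q)))
      (W : Mod.FE E (M * q) ≃ₐ[E] Mod.FE E (M * q)),
      Mod.IsVinf A E (M * q) V → Mod.IsFricke E (M * q) W →
      ∀ p₁ p₂ : Ideal (Mod.chartAlg A E (M * q) (Mod.xE E M q)),
        Mod.IsCut A E (M * q) w V (Mod.chartAlg A E (M * q) (Mod.xE E M q)) p₁ →
        Mod.IsCut A E (M * q) w (V.comap (W : Mod.FE E (M * q) →+* Mod.FE E (M * q)))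
          (Mod.chartAlg A E (M * q) (Mod.xE E M q)) p₂ →
        ∃ (Nn : ℕ) (D D' : Mod.chartAlg A E (M * q) (Mod.xE E M q)), 0 < Nn ∧
          Nat.Coprime Nn m ∧
          D * D' =
            algebraMap (Mod.RE A E) (Mod.chartAlg A E (M * q) (Mod.xE E M q)) w ^ Nn ∧
          D ∉ p₁ ∧ D' ∉ p₂ ∧ Q (D : Mod.FE E (M * q))

/-- **TAME at a good level, abstract unit pair** (two-prime form). -/
theorem tameLevel_gen (hq : q.Prime) (hqM : ¬ q ∣ M) (haux : Fermat.Agent.S35.G.HasAux M q)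
    (hA : A.LiesOverPrime q) (hE : GoodField A E)
    (m : ℕ) (hm : 0 < m) (Q : Mod.FE E (M * q) → Prop) (hUnit : UnitPairGen A E M q m Q)
    (y : Mod.FE E (M * q)) (hy : y ≠ 0) (hdiv : DivisibleDiv E m y) :
    ∃ (w : Mod.RE A E) (D₁ : Mod.FE E (M * q)) (Nn : ℕ) (v₁ v₂ : ℤ),
      Mod.Setting A E M q w ∧ D₁ ≠ 0 ∧ Q D₁ ∧ 0 < Nn ∧ Nat.Coprime Nn m ∧
      ∀ n : Ideal (Mod.chartAlg A E (M * q) (Mod.xE E M q)), n.IsMaximal →
        algebraMap (Mod.RE A E) (Mod.chartAlg A E (M * q) (Mod.xE E M q)) w ∈ n →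
        ∃ (d : Mod.FE E (M * q)) (a : ℤ), d ≠ 0 ∧
          Alg.LocUnit (Mod.chartAlg A E (M * q) (Mod.xE E M q)) n
            ((y ^ Nn * D₁ ^ (v₁ - v₂) * Mod.cE A E (M * q) w ^ (-(Nn : ℤ) * v₁)) *
              Mod.cE A E (M * q) w ^ a * d ^ m) := by
  haveI : IsDiscreteValuationRing ↥(RE A E) := hE.dvr
  haveI : HenselianLocalRing ↥(RE A E) := hE.henselian
  haveI : IsAlgClosed (IsLocalRing.ResidueField ↥(RE A E)) := hE.algClosed
  obtain ⟨w, hw⟩ := IsDiscreteValuationRing.exists_irreducible ↥(RE A E)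
  have hS : Mod.Setting A E M q w :=
    { q_prime := hq
      q_not_dvd := hqM
      M_ne_zero := NeZero.ne M
      lies_over := hA
      dvr := hE.dvr
      unif := hw }
  obtain ⟨V, W, VM, hV, hW, hVM, hg1, hg2, hDeg, sf, si, cf, ci, hcf, hci⟩ :=
    Fermat.Agent.S35.G.H862.model A E M q w hS hE haux
  obtain ⟨hx, hfr, hconst⟩ := hDeg hq hqM
  have hpos : 0 < Module.finrank
      (IntermediateField.adjoin E ({Mod.xE E M q} : Set (Mod.FE E (M * q))))
      (Mod.FE E (M * q)) := by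
    rw [hfr]
    have h1 := Mod.dedekindPsi_pos_of_ne_zero M (NeZero.ne M)
    positivity
  have hfin : FiniteDimensional
      (IntermediateField.adjoin E ({Mod.xE E M q} : Set (Mod.FE E (M * q))))
      (Mod.FE E (M * q)) := Module.finite_of_finrank_pos hpos
  have hCf : ChartCtx E w (Mod.xE E M q) (Mod.chartAlg A E (M * q) (Mod.xE E M q)) :=
    ⟨hw, hx, hfin, hconst, fun _ => Iff.rfl⟩
  -- the unit pair
  obtain ⟨Nn, D, D', hNn, hcop, hmul, hD, hD', hQ⟩ :=
    hUnit w hS V W hV hW cf.p₁ cf.p₂ (fun b => hcf.cut₁ b) (fun b => hcf.cut₂ b)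
  -- valuations along the two components
  obtain ⟨v₁, v₂, hv₁, hv₂⟩ := Fermat.Agent.Ribet.H868.exists_valAt_chart (E := E) w
    (Mod.xE E M q) (Mod.chartAlg A E (M * q) (Mod.xE E M q)) hCf cf y hy
  have hD0 : (D : Mod.FE E (M * q)) ≠ 0 := by
    intro h0
    have : D = 0 := Subtype.ext h0
    exact hD (this ▸ cf.p₁.zero_mem)
  refine ⟨w, (D : Mod.FE E (M * q)), Nn, v₁, v₂, hS, hD0, hQ, hNn, hcop, ?_⟩
  intro n hn hwn
  obtain ⟨d, hd0, hloc, -, -⟩ := Fermat.Agent.Ribet.H868.pureAt_tame (E := E) m Nn hm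
    hNn hcop w (Mod.xE E M q) (Mod.chartAlg A E (M * q) (Mod.xE E M q)) hCf cf
    D D' hmul hD hD' y hy hdiv v₁ v₂ hv₁ hv₂ n hn.isPrime hwn
  refine ⟨d, 0, hd0, ?_⟩
  rw [zpow_zero, mul_one]
  exact hloc

/-- Sanity / the case `p ≥ 5`: at an UNRAMIFIED good level the pair of `H464` (`Δ(t)/Δ(t^q)`,
exponent `12`) is a `UnitPairGen` for every exponent `m` prime to `12`. -/
theorem unitPairGen_twelve (hq : q.Prime) (hA : A.LiesOverPrime q) (hE : GoodField A E)
    (hunr : ∀ e : E, (e : Kbar) ∈ A.nonunits → (e : Kbar) * ((q : Kbar))⁻¹ ∈ A)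
    (m : ℕ) (hcop : Nat.Coprime 12 m) :
    UnitPairGen A E M q m (fun D =>
      ((D : Mod.FE E (M * q)) : LaurentSeries E) =
        Fermat.Agent.S36.H438.castE E (Fermat.Agent.S28.H589.unitL' q)) := by
  intro w hS V W hV hW p₁ p₂ hc₁ hc₂
  haveI : IsDiscreteValuationRing ↥(RE A E) := hE.dvr
  obtain ⟨e, D, D', he, hass, hmul, hD, hD', hexp⟩ :=
    Fermat.Agent.Ribet.H464.exists_unitPair_cut_exp464 hS hV hW p₁ p₂ hc₁ hc₂
  have he1 : e = 1 := Fermat.Agent.Ribet.H464.pow_eq_of_associated464 hS.unif hass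
    (Fermat.Agent.Ribet.H912.associated_natCast_of_unramified hq hA hE.dvr hunr hS.unif)
  subst he1
  rw [mul_one] at hmul
  exact ⟨12, D, D', by norm_num, hcop, hmul, hD, hD', hexp⟩

end Level

/-! ### the core -/

section Core

/-- Changing the name of the level of a function over `ℚ̄`. -/
theorem exists_cast_FF {N N' : ℕ} [NeZero N] [NeZero N'] (h : N = N') (z : FF N) :
    ∃ z' : FF N', (z' : LaurentSeries Kbar) = (z : LaurentSeries Kbar) := by
  subst h
  exact ⟨z, rfl⟩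

variable (q M m : ℕ) [NeZero M] [NeZero q] [NeZero (q * M)]

/-- **TAME-FIXED / CORE-OUT-q, two-prime form, abstract unit pair**, at a level `E` which is
the inertia field of `A`. -/
theorem tameCore_gen_aux (hq : q.Prime) (hqM : ¬ q ∣ M) (haux : Fermat.Agent.S35.G.HasAux M q)
    (hm : 0 < m)
    (A : ValuationSubring Kbar) (hA : A.LiesOverPrime q)
    (E : IntermediateField ℚ Kbar)
    (hEq : E = IntermediateField.fixedField (A.inertiaSubgroupIn ℚ))
    (hE : GoodField A E)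
    (Q : Mod.FE E (M * q) → Prop)
    (hUnit : UnitPairGen A E M q m Q)
    (x : JZero (q * M)) (hx : m • x = 0)
    (hfix : ∀ σ ∈ A.inertiaSubgroupIn ℚ, σ • x = x) :
    ∃ (f G Dg : FF (q * M)) (D₁ : Mod.FE E (M * q))
      (n a b : ℕ), IsKummerGen (q * M) m f x ∧ Q D₁ ∧
      (Dg : LaurentSeries Kbar) =
        coeffMap (algebraMap E Kbar) (D₁ : LaurentSeries E) ∧
      Dg ≠ 0 ∧ 0 < n ∧ Nat.Coprime n m ∧
      G * Dg ^ b = f ^ n * Dg ^ a ∧
      ∃ r₁ r₂ : LaurentSeries (kA A), IsRedInf (q * M) A G r₁ ∧ IsRedZero (q * M) A G r₂ ∧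
        PDivFin m M r₁ ∧ PDivFin m M r₂ := by
  classical
  haveI hPD : HasPrincipalDivisors Kbar ↥(modularFunctionFieldBar (q * M)) :=
    Fermat.Agent.Lib.RR.H864.hasPrincipalDivisors_modularFunctionFieldBar (q * M)
  have hconst : Fermat.Agent.S36.H756.ConstOfOrdZero Kbar ↥(modularFunctionFieldBar (q * M)) := by
    intro u hu h
    obtain ⟨c, hc⟩ :=
      Fermat.Agent.S18.H144.constOfOrdZero_modularFunctionFieldBar (q * M) u hu h
    exact ⟨c, hc.symm⟩
  -- 1. DESC
  obtain ⟨D₀, f, hf0, hDx, hfD, hffix⟩ :=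
    Fermat.Agent.S36.H756.exists_fixed_kummer_rep (F₀ := modularFunctionFieldFull (q * M))
      hconst (A.inertiaSubgroupIn ℚ) m x hx hfix
  -- 2. descent to the inertia field
  obtain ⟨y, hy⟩ : ∃ y : ↥(laurentBaseChange E (modularFunctionFieldFull (q * M))),
      iota E (modularFunctionFieldFull (q * M)) y = f := by
    subst hEq
    exact Fermat.Agent.S36.H756.exists_iota_eq_of_fixed (A.inertiaSubgroupIn ℚ) f hffix
  -- the level `M * q`
  obtain ⟨y', hy'⟩ := Fermat.Agent.Ribet.H912.exists_cast_level E (Nat.mul_comm q M) y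
  have hfy : (f : LaurentSeries Kbar) = coeffMap (algebraMap E Kbar) (y : LaurentSeries E) := by
    rw [← hy]
    rfl
  have hy'0 : y' ≠ 0 := by
    rintro rfl
    apply hf0
    apply Subtype.ext
    rw [hfy, ← hy']
    show coeffMap (algebraMap E Kbar) (0 : LaurentSeries E) = 0
    rw [map_zero]
  have hdiv : DivisibleDiv E m y' := by
    refine divisibleDiv_of_ord E (modularFunctionFieldFull (M * q)) m y' hy'0 ?_
    refine Fermat.Agent.Ribet.H912.dvd_ord_cast (Nat.mul_comm q M) m f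
      (iota E (modularFunctionFieldFull (M * q)) y') ?_ (fun v => ⟨_, hfD v⟩)
    rw [coe_iota, hy', hfy]
  -- 3. LEVEL
  obtain ⟨w, D₁, Nn, v₁, v₂, hS, hD₁0, hQ, hNn, hcop, hpure⟩ :=
    tameLevel_gen A E M q hq hqM haux hA hE m hm Q hUnit y' hy'0 hdiv
  haveI : IsDiscreteValuationRing ↥(RE A E) := hE.dvr
  have hw0 : (w : E) ≠ 0 := fun h => hS.unif.ne_zero (Subtype.ext h)
  have hcw0 : Mod.cE A E (M * q) w ≠ 0 := by
    show algebraMap E (Mod.FE E (M * q)) (w : E) ≠ 0
    rw [Ne, map_eq_zero]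
    exact hw0
  set GE : Mod.FE E (M * q) :=
    y' ^ Nn * D₁ ^ (v₁ - v₂) * Mod.cE A E (M * q) w ^ (-(Nn : ℤ) * v₁) with hGE
  have hGE0 : GE ≠ 0 :=
    mul_ne_zero (mul_ne_zero (pow_ne_zero _ hy'0) (zpow_ne_zero _ hD₁0)) (zpow_ne_zero _ hcw0)
  -- the objects over `ℚ̄`
  haveI : NeZero (M * q) := ⟨by rw [Nat.mul_comm]; exact NeZero.ne (q * M)⟩
  obtain ⟨Dg, hDg⟩ := exists_cast_FF (Nat.mul_comm M q)
    (iota E (modularFunctionFieldFull (M * q)) D₁)
  have hDgc : (Dg : LaurentSeries Kbar) = coeffMap (algebraMap E Kbar) (D₁ : LaurentSeries E) := by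
    rw [hDg]
    rfl
  have hDg0 : Dg ≠ 0 := by
    intro h
    apply hD₁0
    have h0 : coeffMap (algebraMap E Kbar) (D₁ : LaurentSeries E) = 0 := by
      rw [← hDgc, h]
      rfl
    have h1 : (D₁ : LaurentSeries E) = 0 :=
      (map_eq_zero (coeffMap (algebraMap E Kbar))).mp h0
    exact Subtype.ext h1
  set c : Kbar := ((w : E) : Kbar) with hc
  have hc0 : c ≠ 0 := by
    intro h
    exact hw0 (Subtype.ext h)
  set f'' : FF (q * M) := algebraMap Kbar (FF (q * M)) (c ^ (-v₁)) * f with hf''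
  have hcc0 : algebraMap Kbar (FF (q * M)) (c ^ (-v₁)) ≠ 0 := by
    rw [Ne, map_eq_zero]
    exact zpow_ne_zero _ hc0
  have hf''0 : f'' ≠ 0 := mul_ne_zero hcc0 hf0
  set G : FF (q * M) := f'' ^ Nn * Dg ^ (v₁ - v₂) with hG
  -- the expansion of `G`
  have hGG : (G : LaurentSeries Kbar) = coeffMap (algebraMap E Kbar) (GE : LaurentSeries E) := by
    set φ : Mod.FE E (M * q) →+* LaurentSeries Kbar :=
      (algebraMap ↥(modularFunctionFieldBar (M * q)) (LaurentSeries Kbar)).comp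
        (iota E (modularFunctionFieldFull (M * q))) with hφ
    set χ : FF (q * M) →+* LaurentSeries Kbar :=
      algebraMap ↥(modularFunctionFieldBar (q * M)) (LaurentSeries Kbar) with hχ
    have hφv : ∀ z : Mod.FE E (M * q),
        φ z = coeffMap (algebraMap E Kbar) (z : LaurentSeries E) := fun z => rfl
    have hχv : ∀ z : FF (q * M), χ z = (z : LaurentSeries Kbar) := fun z => rfl
    have e1 : φ y' = χ f := by
      rw [hφv, hχv, hy', hfy]
    have e2 : φ D₁ = χ Dg := by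
      rw [hφv, hχv, hDgc]
    have e3 : φ (Mod.cE A E (M * q) w) = algebraMap Kbar (LaurentSeries Kbar) c := by
      rw [hφv]
      exact Fermat.Agent.S18.H602.coeffMap_algebraMap' (algebraMap E Kbar) (w : E)
    have e4 : χ (algebraMap Kbar (FF (q * M)) (c ^ (-v₁))) =
        (algebraMap Kbar (LaurentSeries Kbar) c) ^ (-v₁) := by
      rw [hχv, ← map_zpow₀]
      rfl
    have hχG : χ G = ((algebraMap Kbar (LaurentSeries Kbar) c) ^ (-v₁) * χ f) ^ Nn *
        (χ Dg) ^ (v₁ - v₂) := by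
      rw [hG, hf'', map_mul, map_pow, map_mul, e4, map_zpow₀]
    have hφG : φ GE = (χ f) ^ Nn * (χ Dg) ^ (v₁ - v₂) *
        (algebraMap Kbar (LaurentSeries Kbar) c) ^ (-(Nn : ℤ) * v₁) := by
      rw [hGE, map_mul, map_mul, map_pow, map_zpow₀, map_zpow₀, e1, e2, e3]
    have e5 : -v₁ * (Nn : ℤ) = -(Nn : ℤ) * v₁ := by ring
    rw [← hφv GE, ← hχv G, hχG, hφG, mul_pow,
      ← zpow_natCast ((algebraMap Kbar (LaurentSeries Kbar) c) ^ (-v₁)) Nn, ← zpow_mul, e5]
    ring
  -- 4. DICT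
  have hNG := Fermat.Agent.Ribet.H472.nodeGenOfPure hS hE m GE G hGE0 hGG hpure
  -- 5. the Kummer generator and the relation
  have hK : IsKummerGen (q * M) m f'' x := by
    refine ⟨hf''0, D₀, hDx, fun v => ?_⟩
    rw [hf'', v.ord_mul hcc0 hf0, Fermat.Agent.S36.H756.ord_const_eq_zero, zero_add, hfD v]
  refine ⟨f'', G, Dg, D₁, Nn, (v₁ - v₂).toNat, (-(v₁ - v₂)).toNat, hK, hQ, hDgc, hDg0, hNn, hcop,
    ?_, hNG⟩
  have hk : (v₁ - v₂) + ((-(v₁ - v₂)).toNat : ℤ) = ((v₁ - v₂).toNat : ℤ) := by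
    have := Int.toNat_sub_toNat_neg (v₁ - v₂)
    omega
  rw [hG, mul_assoc, ← zpow_natCast Dg (-(v₁ - v₂)).toNat, ← zpow_add₀ hDg0, hk, zpow_natCast]

/-- **TAME-FIXED / CORE-OUT-q, two-prime form, abstract unit pair.**  The level is the inertia
field of `A` (an unramified good level: `S36.Eng.H189.unramified_inertiaField`). -/
theorem tameCore_gen (hq : q.Prime) (hqM : ¬ q ∣ M) (haux : Fermat.Agent.S35.G.HasAux M q)
    (hm : 0 < m)
    (A : ValuationSubring Kbar) (hA : A.LiesOverPrime q)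
    (Q : Mod.FE (IntermediateField.fixedField (A.inertiaSubgroupIn ℚ)) (M * q) → Prop)
    (hUnit : UnitPairGen A (IntermediateField.fixedField (A.inertiaSubgroupIn ℚ)) M q m Q)
    (x : JZero (q * M)) (hx : m • x = 0)
    (hfix : ∀ σ ∈ A.inertiaSubgroupIn ℚ, σ • x = x) :
    ∃ (f G Dg : FF (q * M))
      (D₁ : Mod.FE (IntermediateField.fixedField (A.inertiaSubgroupIn ℚ)) (M * q))
      (n a b : ℕ), IsKummerGen (q * M) m f x ∧ Q D₁ ∧
      (Dg : LaurentSeries Kbar) =
        coeffMap (algebraMap (IntermediateField.fixedField (A.inertiaSubgroupIn ℚ)) Kbar)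
          (D₁ : LaurentSeries (IntermediateField.fixedField (A.inertiaSubgroupIn ℚ))) ∧
      Dg ≠ 0 ∧ 0 < n ∧ Nat.Coprime n m ∧
      G * Dg ^ b = f ^ n * Dg ^ a ∧
      ∃ r₁ r₂ : LaurentSeries (kA A), IsRedInf (q * M) A G r₁ ∧ IsRedZero (q * M) A G r₂ ∧
        PDivFin m M r₁ ∧ PDivFin m M r₂ :=
  tameCore_gen_aux q M m hq hqM haux hm A hA _ rfl
    (Fermat.Agent.S36.Eng.H189.unramified_inertiaField q hq A hA).1 Q hUnit x hx hfix

end Core

end Fermat.Agent.Ribet.H698.TameGen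

end
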